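import Mathlib
import Fermat.Prelude.Def_GroupCohomology_ContinuousUnramified

/-!
# GATE-C / C0: finite groups of invertible order have no `H¹`, no level-constant `H²`
  (helper59)

Used to discard the archimedean component of `extArithIndex S` in `sha₁`, `sha₂` when `p` is odd:
the archimedean decomposition group has order `2`.
-/

set_option autoImplicit false

namespace Fermat.Agent.GC.Arch

open groupCohomology CategoryTheory

universe u

variable {k G : Type u} [CommRing k] [Group G]

/-- `H¹(G, A) = 0` when `G` is finite of order invertible in `k`. -/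
theorem H1_eq_zero_of_isUnit_card [Fintype G] (A : Rep k G) (h : IsUnit (Fintype.card G : k))
    (x : H1 A) : x = 0 := by
  classical
  induction x using H1_induction_on with
  | h f =>
    rw [H1π_eq_zero_iff]
    obtain ⟨u, hu⟩ := h
    have hcoc := (mem_cocycles₁_iff (f : G → A)).1 f.2
    set S : A := ∑ j : G, f j with hS
    have key : ∀ g : G, (Fintype.card G : k) • f g = S - A.ρ g S := by
      intro g
      have h1 : ∑ j : G, f (g * j) = S := by
        rw [hS]
        exact Fintype.sum_equiv (Equiv.mulLeft g) _ _ (fun j => rfl)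
      have h2 : ∑ j : G, f (g * j) = A.ρ g S + (Fintype.card G : k) • f g := by
        simp_rw [hcoc g]
        rw [Finset.sum_add_distrib, ← map_sum, Finset.sum_const, Finset.card_univ,
          Nat.cast_smul_eq_nsmul]
      rw [h1] at h2
      rw [eq_sub_iff_add_eq, add_comm]
      exact h2.symm
    refine ⟨-((↑u⁻¹ : k) • S), ?_⟩
    funext g
    rw [d₀₁_hom_apply]
    have h3 : f g = (↑u⁻¹ : k) • ((Fintype.card G : k) • f g) := by
      rw [smul_smul, ← hu, Units.inv_mul, one_smul]
    rw [h3, key g, map_neg, map_smul, smul_sub]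
    abel

variable (r : G →* (AlgebraicClosure ℚ ≃ₐ[ℚ] AlgebraicClosure ℚ))

/-- The prelude's level-constant `H²` vanishes for a finite group of order invertible in `k`. -/
theorem continuousH2_eq_zero_of_isUnit_card [Fintype G] (A : Rep k G)
    (h : IsUnit (Fintype.card G : k)) (x : continuousH2 r A) : x = 0 := by
  classical
  obtain ⟨f, rfl⟩ := Submodule.mkQ_surjective _ x
  change continuousH2π r A f = 0
  rw [continuousH2π_eq_zero_iff, mem_levelCoboundaries₂_iff]
  obtain ⟨u, hu⟩ := h
  obtain ⟨hfc, F, hF, hFc⟩ := f.2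
  have hcoc := (mem_cocycles₂_iff (f : G × G → A)).1 hfc
  set U : G → A := fun g => ∑ j : G, (f : G × G → A) (g, j) with hU
  have key : ∀ g h : G, (Fintype.card G : k) • (f : G × G → A) (g, h)
      = A.ρ g (U h) - U (g * h) + U g := by
    intro g h
    have h1 : ∑ j : G, (f : G × G → A) (g, h * j) = U g := by
      rw [hU]
      exact Fintype.sum_equiv (Equiv.mulLeft h) _ _ (fun j => rfl)
    have h2 : ∑ j : G, ((f : G × G → A) (g * h, j) + (f : G × G → A) (g, h))
        = ∑ j : G, (A.ρ g ((f : G × G → A) (h, j)) + (f : G × G → A) (g, h * j)) :=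
      Finset.sum_congr rfl fun j _ => hcoc g h j
    rw [Finset.sum_add_distrib, Finset.sum_add_distrib, h1, ← map_sum, Finset.sum_const,
      Finset.card_univ] at h2
    rw [Nat.cast_smul_eq_nsmul]
    have h4 : U (g * h) + Fintype.card G • (f : G × G → A) (g, h) = A.ρ g (U h) + U g := h2
    have h5 : Fintype.card G • (f : G × G → A) (g, h) = A.ρ g (U h) + U g - U (g * h) :=
      eq_sub_of_add_eq' h4
    rw [h5]
    abel
  refine ⟨fun g => (↑u⁻¹ : k) • U g, ⟨F, hF, fun g s hs => ?_⟩, ?_⟩
  · simp only [hU]
    congr 1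
    refine Finset.sum_congr rfl fun j _ => ?_
    have := hFc g j s 1 hs (by rw [map_one]; exact Subgroup.one_mem _)
    rwa [mul_one] at this
  · funext ⟨g, h⟩
    rw [d₁₂_hom_apply]
    have h3 : (f : G × G → A) (g, h) = (↑u⁻¹ : k) • ((Fintype.card G : k) • (f : G × G → A) (g, h)) := by
      rw [smul_smul, ← hu, Units.inv_mul, one_smul]
    rw [h3, key g h]
    simp only [map_smul, smul_sub, smul_add]

end Fermat.Agent.GC.Arch

namespace Fermat.Agent.GC.Arch

open groupCohomology CategoryTheory ExtCitation

instance finite_archimedeanDecomposition : Finite archimedeanDecomposition := by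
  unfold archimedeanDecomposition
  have h : IsOfFinOrder complexConjugation :=
    isOfFinOrder_iff_pow_eq_one.2 ⟨2, by norm_num, complexConjugation_sq⟩
  exact Set.finite_coe_iff.2 h.finite_zpowers

noncomputable instance fintype_archimedeanDecomposition : Fintype archimedeanDecomposition :=
  Fintype.ofFinite _

theorem card_archimedeanDecomposition_dvd : Fintype.card archimedeanDecomposition ∣ 2 := by
  rw [← Nat.card_eq_fintype_card]
  unfold archimedeanDecomposition
  rw [Nat.card_zpowers]
  exact orderOf_dvd_of_pow_eq_one complexConjugation_sq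

theorem isUnit_card_archimedeanDecomposition (p : ℕ) [Fact p.Prime] (hp2 : p ≠ 2) :
    IsUnit ((Fintype.card archimedeanDecomposition : ℕ) : ZMod p) := by
  rw [ZMod.isUnit_iff_coprime]
  have hp : p.Prime := Fact.out
  have h2 : Nat.Coprime 2 p := by
    rw [Nat.coprime_comm, Nat.Prime.coprime_iff_not_dvd hp]
    intro h
    exact hp2 ((Nat.prime_dvd_prime_iff_eq hp Nat.prime_two).1 h)
  exact Nat.Coprime.coprime_dvd_left card_archimedeanDecomposition_dvd h2

variable {p : ℕ} [Fact p.Prime]

/-- For odd `p` the archimedean `H¹` is trivial. -/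
theorem H1_archimedean_eq_zero (hp2 : p ≠ 2)
    (A : Rep (ZMod p) (AlgebraicClosure ℚ ≃ₐ[ℚ] AlgebraicClosure ℚ))
    (x : H1 (Rep.res archimedeanLoc A)) : x = 0 :=
  H1_eq_zero_of_isUnit_card _ (isUnit_card_archimedeanDecomposition p hp2) x

/-- For odd `p` the archimedean level-constant `H²` is trivial. -/
theorem continuousH2_archimedean_eq_zero (hp2 : p ≠ 2)
    (A : Rep (ZMod p) (AlgebraicClosure ℚ ≃ₐ[ℚ] AlgebraicClosure ℚ))
    (x : continuousH2 archimedeanLoc (Rep.res archimedeanLoc A)) : x = 0 :=
  continuousH2_eq_zero_of_isUnit_card _ _ (isUnit_card_archimedeanDecomposition p hp2) x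

variable (S : Finset Nat.Primes)

/-- `Ш¹` only sees the finite places in `S` when `p` is odd. -/
theorem mem_sha₁_iff (hp2 : p ≠ 2)
    (A : Rep (ZMod p) (AlgebraicClosure ℚ ≃ₐ[ℚ] AlgebraicClosure ℚ)) (x : H1 A) :
    x ∈ sha₁ S A ↔ x ∈ continuousH1S S A ∧
      ∀ q : ↥S, (locRes (extArithLoc S) A (Sum.inr q)).hom x = 0 := by
  unfold sha₁
  rw [Submodule.mem_inf, LinearMap.mem_ker]
  refine and_congr_right fun _ => ⟨fun h q => ?_, fun h => ?_⟩
  · exact congrFun h (Sum.inr q)
  · funext v
    rcases v with v | q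
    · exact H1_archimedean_eq_zero hp2 A _
    · exact h q

/-- `Ш²` only sees the finite places in `S` when `p` is odd. -/
theorem mem_sha₂_iff (hp2 : p ≠ 2)
    (M : Rep (ZMod p) (AlgebraicClosure ℚ ≃ₐ[ℚ] AlgebraicClosure ℚ)) (x : continuousH2S S M) :
    x ∈ sha₂ S M ↔ ∀ q : ↥S, locRes₂S S M (primeLocalToGlobal q.1) x = 0 := by
  unfold sha₂
  rw [LinearMap.mem_ker]
  refine ⟨fun h q => ?_, fun h => ?_⟩
  · exact congrFun h (Sum.inr q)
  · funext v
    rcases v with v | q
    · exact continuousH2_archimedean_eq_zero hp2 M _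
    · exact h q

end Fermat.Agent.GC.Arch
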