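import Mathlib

/-!
# GATE-C / E0 (helper59)

Pure linear algebra: two finite-dimensional vector spaces of the same dimension carry a bilinear
pairing that is nondegenerate on both sides.  This is the last step of S55: the Poitou–Tate
statement there is equivalent to `finrank (sha₁ S M*) = finrank (sha₂ S M)`.
-/

set_option autoImplicit false

namespace Fermat.Agent.GC.E0

open Module

/-- Two finite-dimensional spaces of the same dimension admit a pairing that is nondegenerate on
both sides (in exactly the shape used by the frozen statement S55). -/
theorem exists_nondegenerate_pairing_of_finrank_eq {k V W : Type*} [Field k]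
    [AddCommGroup V] [Module k V] [AddCommGroup W] [Module k W]
    [FiniteDimensional k V] [FiniteDimensional k W]
    (h : finrank k V = finrank k W) :
    ∃ B : V →ₗ[k] W →ₗ[k] k,
      (∀ y, (∀ x, B y x = 0) → y = 0) ∧ (∀ x, (∀ y, B y x = 0) → x = 0) := by
  classical
  obtain ⟨e⟩ : Nonempty (V ≃ₗ[k] W) := FiniteDimensional.nonempty_linearEquiv_of_finrank_eq h
  let b := Module.finBasis k W
  let d : W ≃ₗ[k] Module.Dual k W := b.toDualEquiv
  refine ⟨(d.toLinearMap.comp e.toLinearMap), ?_, ?_⟩
  · intro y hy
    have h1 : d (e y) = 0 := LinearMap.ext fun x => by simpa using hy x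
    have h2 : e y = 0 := by simpa using h1
    simpa using h2
  · intro x hx
    rw [← Module.forall_dual_apply_eq_zero_iff k x]
    intro φ
    obtain ⟨w, rfl⟩ := d.surjective φ
    obtain ⟨y, rfl⟩ := e.surjective w
    simpa using hx y

/-- Converse direction (for the record): a pairing nondegenerate on both sides between
finite-dimensional spaces forces equal dimensions. -/
theorem finrank_eq_of_nondegenerate_pairing {k V W : Type*} [Field k]
    [AddCommGroup V] [Module k V] [AddCommGroup W] [Module k W]
    [FiniteDimensional k V] [FiniteDimensional k W]
    (B : V →ₗ[k] W →ₗ[k] k)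
    (hl : ∀ y, (∀ x, B y x = 0) → y = 0) (hr : ∀ x, (∀ y, B y x = 0) → x = 0) :
    finrank k V = finrank k W := by
  have h1 : Function.Injective B := by
    rw [← LinearMap.ker_eq_bot, LinearMap.ker_eq_bot']
    intro y hy
    exact hl y fun x => by rw [hy]; rfl
  have h2 : Function.Injective B.flip := by
    rw [← LinearMap.ker_eq_bot, LinearMap.ker_eq_bot']
    intro x hx
    exact hr x fun y => by
      have := LinearMap.congr_fun hx y
      simpa using this
  have a1 : finrank k V ≤ finrank k W := by
    have := LinearMap.finrank_le_finrank_of_injective h1
    rwa [Subspace.dual_finrank_eq] at this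
  have a2 : finrank k W ≤ finrank k V := by
    have := LinearMap.finrank_le_finrank_of_injective h2
    rwa [Subspace.dual_finrank_eq] at this
  exact le_antisymm a1 a2

end Fermat.Agent.GC.E0
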